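/-
S55 / leaf 32b-AUX-PRIMES (helper6), part 1: inert primes of degree one.

From the LANDED S14 density package (`Euler23.exists_bound_tsum_pN`, `Euler92.primeSum_nonprime_tsum_bound`,
`Split27.inert_density`): in a Galois extension `L/K` of number fields of prime degree `p`, the primes of
`K` of absolute degree one which are inert in `L` avoid every finite set of primes.
-/
import Mathlib
import Fermat.Agent.S14.DensFinal27

set_option autoImplicit false

open NumberField Ideal IsDedekindDomain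

namespace Fermat.Agent.S55.AuxPrimes6

open Fermat.Agent.S14 Fermat.Agent.S14.Split27

/-- A set of primes whose prime sum grows at least like `c · log (1/(s-1))` (`c > 0`) is not contained
in a finite set. -/
theorem exists_notMem_of_density (F : Type*) [Field F] [NumberField F]
    (T : Set (HeightOneSpectrum (𝓞 F))) {c C : ℝ} (hc : 0 < c)
    (h : ∀ s : ℝ, 1 < s → s ≤ 2 → c * Real.log (1 / (s - 1)) - C ≤ ∑' Q : T, nrmPow F s Q)
    (B : Set (HeightOneSpectrum (𝓞 F))) (hB : B.Finite) : ∃ Q ∈ T, Q ∉ B := by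
  by_contra hcon
  have hTB : T ⊆ B := fun Q hQ => by
    by_contra hQB
    exact hcon ⟨Q, hQ, hQB⟩
  have hT : T.Finite := hB.subset hTB
  set n : ℝ := (T.ncard : ℝ) with hn
  set x : ℝ := max 0 ((C + n + 1) / c) with hx
  have hx0 : 0 ≤ x := le_max_left _ _
  have hx1 : (C + n + 1) / c ≤ x := le_max_right _ _
  set s : ℝ := 1 + Real.exp (-x) with hs
  have hs1 : 1 < s := by
    have := Real.exp_pos (-x)
    linarith
  have hs2 : s ≤ 2 := by
    have : Real.exp (-x) ≤ 1 := Real.exp_le_one_iff.mpr (by linarith)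
    linarith
  have hlog : Real.log (1 / (s - 1)) = x := by
    have : s - 1 = Real.exp (-x) := by rw [hs]; ring
    rw [this, one_div, ← Real.exp_neg, neg_neg, Real.log_exp]
  have h1 := h s hs1 hs2
  rw [hlog] at h1
  have h2 : ∑' Q : T, nrmPow F s Q ≤ n := by
    rw [tsum_subtype T (nrmPow F s)]
    exact tsum_indicator_le_ncard F (by linarith) hT
  have h3 : C + n + 1 ≤ c * x := by
    have := (div_le_iff₀ hc).mp hx1
    linarith
  linarith

variable {p : ℕ} [hp : Fact p.Prime]

/-- **(A1)** In a Galois extension `L/K` of number fields of prime degree `p`, the primes of `K` of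
absolute degree one which are inert in `L` avoid every finite set `B`. -/
theorem exists_inert_degOne {K L : Type*} [Field K] [NumberField K] [Field L] [NumberField L]
    [Algebra K L] [IsGalois K L] (hdeg : Module.finrank K L = p)
    (B : Set (HeightOneSpectrum (𝓞 K))) (hB : B.Finite) :
    ∃ Q : HeightOneSpectrum (𝓞 K), Q ∉ B ∧ (absNorm Q.asIdeal).Prime ∧
      (Q.asIdeal.map (algebraMap (𝓞 K) (𝓞 L))).IsPrime := by
  classical
  have hpp : p.Prime := hp.out
  obtain ⟨CK, hCK⟩ := Euler23.exists_bound_tsum_pN K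
  obtain ⟨CL, hCL⟩ := Euler23.exists_bound_tsum_pN L
  have hK : ∃ C : ℝ, ∀ s : ℝ, 1 < s → s ≤ 2 →
      Summable (nrmPow K s) ∧ Real.log (1 / (s - 1)) - C ≤ ∑' Q, nrmPow K s Q := by
    refine ⟨CK, fun s hs1 hs2 => ⟨Euler23.summable_pN hs1, ?_⟩⟩
    have := (abs_le.mp (hCK s hs1 hs2)).1
    have h2 : ∑' Q : HeightOneSpectrum (𝓞 K), Euler23.pN Q s = ∑' Q, nrmPow K s Q := rfl
    linarith
  have hL : ∃ C : ℝ, ∀ s : ℝ, 1 < s → s ≤ 2 →
      Summable (nrmPow L s) ∧ ∑' P, nrmPow L s P ≤ Real.log (1 / (s - 1)) + C := by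
    refine ⟨CL, fun s hs1 hs2 => ⟨Euler23.summable_pN hs1, ?_⟩⟩
    have := (abs_le.mp (hCL s hs1 hs2)).2
    have h2 : ∑' Q : HeightOneSpectrum (𝓞 L), Euler23.pN Q s = ∑' Q, nrmPow L s Q := rfl
    linarith
  obtain ⟨C1, hC1⟩ := inert_density hdeg hK hL
  obtain ⟨C2, hC2⟩ := Euler92.primeSum_nonprime_tsum_bound K
  obtain ⟨CK', hCK'⟩ := hK
  -- the target set
  set T : Set (HeightOneSpectrum (𝓞 K)) :=
    {Q | (absNorm Q.asIdeal).Prime ∧ Q ∈ inertSet K L} with hT
  have hc : (0 : ℝ) < 1 - 1 / (p : ℝ) := by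
    have : (2 : ℝ) ≤ p := by exact_mod_cast hpp.two_le
    have h2 : 1 / (p : ℝ) ≤ 1 / 2 := one_div_le_one_div_of_le (by norm_num) this
    linarith
  have hdens : ∀ s : ℝ, 1 < s → s ≤ 2 →
      (1 - 1 / (p : ℝ)) * Real.log (1 / (s - 1)) - (C1 + C2) ≤ ∑' Q : T, nrmPow K s Q := by
    intro s hs1 hs2
    obtain ⟨hsK, -⟩ := hCK' s hs1 hs2
    set f := nrmPow K s with hf
    have hf0 : ∀ Q, 0 ≤ f Q := nrmPow_nonneg K s
    have hpt : ∀ Q, (inertSet K L).indicator f Q ≤ T.indicator f Q +
        (degGeTwoSet K).indicator f Q := by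
      intro Q
      have n1 := Set.indicator_nonneg (s := T) (fun a _ => hf0 a) Q
      have n2 := Set.indicator_nonneg (s := degGeTwoSet K) (fun a _ => hf0 a) Q
      by_cases hin : Q ∈ inertSet K L
      · rw [Set.indicator_of_mem hin]
        by_cases h1 : (absNorm Q.asIdeal).Prime
        · have : Q ∈ T := ⟨h1, hin⟩
          rw [Set.indicator_of_mem this]; linarith
        · have : Q ∈ degGeTwoSet K := h1
          rw [Set.indicator_of_mem this]; linarith
      · rw [Set.indicator_of_notMem hin]; linarith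
    have hs1' : Summable (T.indicator f) := hsK.indicator _
    have hs2' : Summable ((degGeTwoSet K).indicator f) := hsK.indicator _
    have hs0' : Summable ((inertSet K L).indicator f) := hsK.indicator _
    have hsum : ∑' Q, (inertSet K L).indicator f Q ≤ ∑' Q, T.indicator f Q +
        ∑' Q, (degGeTwoSet K).indicator f Q := by
      rw [← (hs1'.tsum_add hs2')]
      exact hs0'.tsum_le_tsum hpt (hs1'.add hs2')
    have hb2 := hC2 s hs1
    have hb1 := hC1 s hs1 hs2
    rw [tsum_subtype (inertSet K L) f] at hb1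
    rw [tsum_subtype T f]
    have hb2' : ∑' Q, (degGeTwoSet K).indicator f Q ≤ C2 := by
      rw [← tsum_subtype (degGeTwoSet K) f]
      exact hb2
    linarith
  obtain ⟨Q, hQT, hQB⟩ := exists_notMem_of_density K T hc hdens B hB
  exact ⟨Q, hQB, hQT.1, hQT.2⟩

/-- Set-theoretic form of (A1): infinitely many inert primes of degree one. -/
theorem infinite_inert_degOne {K L : Type*} [Field K] [NumberField K] [Field L] [NumberField L]
    [Algebra K L] [IsGalois K L] (hdeg : Module.finrank K L = p) :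
    {Q : HeightOneSpectrum (𝓞 K) | (absNorm Q.asIdeal).Prime ∧
      (Q.asIdeal.map (algebraMap (𝓞 K) (𝓞 L))).IsPrime}.Infinite := by
  intro hfin
  obtain ⟨Q, hQ, h1, h2⟩ := exists_inert_degOne hdeg _ hfin
  exact hQ ⟨h1, h2⟩

end Fermat.Agent.S55.AuxPrimes6
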