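/-
S55 / leaf 32b-AUX-PRIMES (helper6), part 2: the Kummer step.

`L = K(β)`, `β^p = u`, `[L:K] = p` Galois with `σ β = ζ β`.  An element `a ∈ K` which becomes a `p`-th
power in `L` is of the form `u^k v^p` with `v ∈ K`.
-/
import Mathlib

set_option autoImplicit false

namespace Fermat.Agent.S55.AuxPrimes6

variable {K L : Type*} [Field K] [Field L] [Algebra K L]

/-- **Kummer step.** `K ∋ ζ_p`, `L/K` Galois of degree `p`, `β ∈ L` with `β^p = u ∈ Kˣ` and
`σ β = ζ β`.  If `a ∈ K` is a `p`-th power in `L`, then `a = u^k v^p` for some `k` and `v ∈ K`. -/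
theorem exists_eq_pow_mul_pow [FiniteDimensional K L] [IsGalois K L] {p : ℕ} [hp : Fact p.Prime]
    (hdeg : Module.finrank K L = p) {ζ : K} (hζ : IsPrimitiveRoot ζ p) {β : L} {u : K}
    (hβ : β ^ p = algebraMap K L u) (hu : u ≠ 0) (σ : L ≃ₐ[K] L)
    (hσ : σ β = algebraMap K L ζ * β) {a : K} {γ : L} (hγ : γ ^ p = algebraMap K L a) :
    ∃ (k : ℕ) (v : K), a = u ^ k * v ^ p := by
  have hpp : p.Prime := hp.out
  have : NeZero p := ⟨hpp.ne_zero⟩
  rcases eq_or_ne a 0 with rfl | ha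
  · exact ⟨0, 0, by simp [hpp.ne_zero]⟩
  have hinj : Function.Injective (algebraMap K L) := (algebraMap K L).injective
  have hγ0 : γ ≠ 0 := by
    rintro rfl
    rw [zero_pow hpp.ne_zero] at hγ
    exact ha (hinj (by rw [map_zero]; exact hγ.symm))
  have hβ0 : β ≠ 0 := by
    rintro rfl
    rw [zero_pow hpp.ne_zero] at hβ
    exact hu (hinj (by rw [map_zero]; exact hβ.symm))
  have hζL : IsPrimitiveRoot (algebraMap K L ζ) p := hζ.map_of_injective hinj
  -- `σ γ = ζ^k γ`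
  have h1 : (σ γ / γ) ^ p = 1 := by
    rw [div_pow, ← map_pow, hγ, σ.commutes, div_self]
    rw [← hγ]; exact pow_ne_zero _ hγ0
  obtain ⟨k, -, hk⟩ := hζL.eq_pow_of_pow_eq_one h1
  have hσγ : σ γ = (algebraMap K L ζ) ^ k * γ := by
    rw [hk, div_mul_cancel₀ _ hγ0]
  -- `δ := γ / β^k` is fixed by `σ`
  set δ : L := γ / β ^ k with hδ
  have hσδ : σ δ = δ := by
    rw [hδ, map_div₀, map_pow, hσγ, hσ, mul_pow]
    have hz : (algebraMap K L ζ) ^ k ≠ 0 := pow_ne_zero _ (hζL.ne_zero hpp.ne_zero)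
    rw [mul_div_mul_left _ _ hz]
  -- `σ` generates the Galois group
  have hσ1 : σ ≠ 1 := by
    intro h
    rw [h, AlgEquiv.one_apply] at hσ
    have hz1 : algebraMap K L ζ = 1 := by
      have := mul_right_cancel₀ hβ0 (show algebraMap K L ζ * β = 1 * β by rw [one_mul]; exact hσ.symm)
      exact this
    exact (hζL.ne_one hpp.one_lt) hz1
  have hcard : Nat.card (L ≃ₐ[K] L) = p := by
    rw [IsGalois.card_aut_eq_finrank, hdeg]
  have htop : Subgroup.zpowers σ = ⊤ := zpowers_eq_top_of_prime_card hcard hσ1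
  have hfix : ∀ τ : L ≃ₐ[K] L, τ δ = δ := by
    intro τ
    have hτ : τ ∈ Subgroup.zpowers σ := by rw [htop]; trivial
    have hle : Subgroup.zpowers σ ≤ MulAction.stabilizer (L ≃ₐ[K] L) δ := by
      rw [Subgroup.zpowers_le]
      exact hσδ
    exact hle hτ
  obtain ⟨v, hv⟩ := (IsGalois.mem_range_algebraMap_iff_fixed δ).mpr hfix
  refine ⟨k, v, hinj ?_⟩
  rw [map_mul, map_pow, map_pow, hv, ← hβ, ← hγ, hδ, div_pow, ← pow_mul, ← pow_mul,
    mul_comm k p, mul_div_cancel₀]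
  exact pow_ne_zero _ hβ0

end Fermat.Agent.S55.AuxPrimes6
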