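/-
S55 / leaf 32b-AUX-PRIMES (helper6), part 3: weak Chebotarev for Kummer characters.

`K` a number field containing `ζ_p`.
* `exists_prime_nonRes` (A2): `w ∈ 𝓞 K` not a `p`-th power in `K` ⇒ outside any finite set there is a
  degree-one prime `Q ∤ p w` modulo which `w` is not a `p`-th power.
* `exists_prime_split_nonRes` (A3): `us ⊆ 𝓞 K ∖ {0}` finite, `w ∉ ⟨us⟩ K^{×p}` ⇒ outside any finite set
  there is a degree-one prime `Q ∤ p`, prime to `us` and `w`, modulo which every `u ∈ us` IS a `p`-th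
  power and `w` is NOT.
-/
import Mathlib
import Fermat.Agent.S55.AuxPrimes6.Inert
import Fermat.Agent.S55.AuxPrimes6.KummerStep

set_option autoImplicit false

open NumberField Ideal IsDedekindDomain

namespace Fermat.Agent.S55.AuxPrimes6

open Fermat.Agent.S14 Fermat.Agent.S14.Split27

/-- In a quotient ring of prime cardinality every class is represented by an integer. -/
theorem exists_intCast_sub_mem {B : Type*} [CommRing B] (𝔔 : Ideal B) {ℓ : ℕ} (hℓ : ℓ.Prime)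
    (hcard : Nat.card (B ⧸ 𝔔) = ℓ) (y : B) : ∃ m : ℤ, y - (m : B) ∈ 𝔔 := by
  have : Fact ℓ.Prime := ⟨hℓ⟩
  have h1 : (1 : B ⧸ 𝔔) ≠ 0 := by
    intro h
    have hsub : Subsingleton (B ⧸ 𝔔) := subsingleton_of_zero_eq_one h.symm
    have hfin : Finite (B ⧸ 𝔔) := Nat.finite_of_card_ne_zero (by rw [hcard]; exact hℓ.ne_zero)
    have : Nat.card (B ⧸ 𝔔) = 1 := Nat.card_of_subsingleton 0
    rw [hcard] at this
    exact hℓ.one_lt.ne' this
  have htop : AddSubgroup.zmultiples (1 : B ⧸ 𝔔) = ⊤ :=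
    zmultiples_eq_top_of_prime_card hcard h1
  have hy : Ideal.Quotient.mk 𝔔 y ∈ AddSubgroup.zmultiples (1 : B ⧸ 𝔔) := by rw [htop]; trivial
  obtain ⟨m, hm⟩ := AddSubgroup.mem_zmultiples_iff.mp hy
  refine ⟨m, ?_⟩
  rw [← Ideal.Quotient.eq_zero_iff_mem, map_sub, ← hm, map_intCast]
  simp

variable {p : ℕ}

/-- `IsPowMod` in the orientation of `Split27.not_pow_residue_of_inert`. -/
theorem isPowMod_iff {K : Type*} [Field K] [NumberField K] (Q : Ideal (𝓞 K)) (u : 𝓞 K) :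
    IsPowMod p Q u ↔ ∃ v : 𝓞 K, u - v ^ p ∈ Q := by
  constructor
  · rintro ⟨x, hx⟩; exact ⟨x, by have := Q.neg_mem hx; rwa [neg_sub] at this⟩
  · rintro ⟨x, hx⟩; exact ⟨x, by have := Q.neg_mem hx; rwa [neg_sub] at this⟩

variable [hp : Fact p.Prime]

/-- **(A2)** `w ∈ 𝓞 K` not a `p`-th power in `K ∋ ζ_p`: outside any finite set `B` there is a degree
one prime `Q` with `p ∉ Q`, `w ∉ Q`, modulo which `w` is not a `p`-th power. -/
theorem exists_prime_nonRes (K : Type) [Field K] [NumberField K] (ζ : 𝓞 K)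
    (hζ : IsPrimitiveRoot ζ p) (w : 𝓞 K) (hw : ¬ ∃ v : K, v ^ p = (w : K))
    (B : Set (HeightOneSpectrum (𝓞 K))) (hB : B.Finite) :
    ∃ Q : HeightOneSpectrum (𝓞 K), Q ∉ B ∧ (absNorm Q.asIdeal).Prime ∧ (p : 𝓞 K) ∉ Q.asIdeal ∧
      w ∉ Q.asIdeal ∧ ¬ IsPowMod p Q.asIdeal w := by
  have hpp : p.Prime := hp.out
  have hw0 : w ≠ 0 := by
    rintro rfl
    exact hw ⟨0, by simp [hpp.ne_zero]⟩
  obtain ⟨L, i1, i2, i3, i4, hdeg, β, σ, hβ, hσ⟩ := Split13.exists_kummer_ext K p ζ hζ w hw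
  have hσ' : σ (β : L) = algebraMap K L (ζ : K) * (β : L) := by
    have h1 := congrArg (fun x : 𝓞 L => (x : L)) hσ
    have h2 : ((σ • β : 𝓞 L) : L) = σ (β : L) := rfl
    have h3 : ((algebraMap (𝓞 K) (𝓞 L) ζ * β : 𝓞 L) : L) =
        algebraMap K L (ζ : K) * (β : L) := by
      show algebraMap (𝓞 L) L (algebraMap (𝓞 K) (𝓞 L) ζ * β) = _
      rw [map_mul]
      rfl
    rw [← h2, ← h3]
    exact h1
  have hpK : (p : 𝓞 K) ≠ 0 := by exact_mod_cast hpp.ne_zero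
  have hEp := finite_setOf_mem K hpK
  have hEw := finite_setOf_mem K hw0
  obtain ⟨Q, hQB, hQ1, hQin⟩ := exists_inert_degOne (p := p) hdeg
    (B ∪ {Q | (p : 𝓞 K) ∈ Q.asIdeal} ∪ {Q | w ∈ Q.asIdeal}) ((hB.union hEp).union hEw)
  have hQp : (p : 𝓞 K) ∉ Q.asIdeal := fun h => hQB (Or.inl (Or.inr h))
  have hQw : w ∉ Q.asIdeal := fun h => hQB (Or.inr h)
  refine ⟨Q, fun h => hQB (Or.inl (Or.inl h)), hQ1, hQp, hQw, ?_⟩
  have : Q.asIdeal.IsMaximal := Q.isMaximal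
  rw [isPowMod_iff]
  exact not_pow_residue_of_inert hpp hζ hβ σ hσ' Q.asIdeal hQp hQw hQin

/-! ### descent of a degree-one prime -/

section Descent

variable {K L : Type*} [Field K] [NumberField K] [Field L] [NumberField L] [Algebra K L]

omit hp in
theorem coe_algebraMap (x : 𝓞 K) :
    ((algebraMap (𝓞 K) (𝓞 L) x : 𝓞 L) : L) = algebraMap K L (x : K) := by
  show algebraMap (𝓞 L) L (algebraMap (𝓞 K) (𝓞 L) x) = algebraMap K L (algebraMap (𝓞 K) K x)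
  rw [← IsScalarTower.algebraMap_apply (𝓞 K) (𝓞 L) L, IsScalarTower.algebraMap_apply (𝓞 K) K L]

omit hp in
/-- A prime `𝔔` of `L` of absolute degree one lies over a prime `Q` of `K` of absolute degree one, and
every class modulo `𝔔` is represented by an element of `𝓞 K`. -/
theorem exists_under_degOne (𝔔 : HeightOneSpectrum (𝓞 L)) (h𝔔 : (absNorm 𝔔.asIdeal).Prime) :
    ∃ Q : HeightOneSpectrum (𝓞 K),
      Q.asIdeal = 𝔔.asIdeal.comap (algebraMap (𝓞 K) (𝓞 L)) ∧ (absNorm Q.asIdeal).Prime ∧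
      ∀ y : 𝓞 L, ∃ x : 𝓞 K, y - algebraMap (𝓞 K) (𝓞 L) x ∈ 𝔔.asIdeal := by
  set ℓ := absNorm 𝔔.asIdeal with hℓ
  have hcard : Nat.card (𝓞 L ⧸ 𝔔.asIdeal) = ℓ := by
    rw [hℓ, Ideal.absNorm_apply, Submodule.cardQuot_apply]
  have hrep : ∀ y : 𝓞 L, ∃ x : 𝓞 K, y - algebraMap (𝓞 K) (𝓞 L) x ∈ 𝔔.asIdeal := by
    intro y
    obtain ⟨m, hm⟩ := exists_intCast_sub_mem 𝔔.asIdeal h𝔔 hcard y
    exact ⟨(m : 𝓞 K), by rwa [map_intCast]⟩
  set Q0 : Ideal (𝓞 K) := 𝔔.asIdeal.comap (algebraMap (𝓞 K) (𝓞 L)) with hQ0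
  have hprime : Q0.IsPrime := Ideal.comap_isPrime _ _
  have hne : Q0 ≠ ⊥ := by
    intro h
    have hmem : ((ℓ : ℕ) : 𝓞 K) ∈ Q0 := by
      rw [hQ0, Ideal.mem_comap, map_natCast]
      exact Ideal.absNorm_mem 𝔔.asIdeal
    rw [h, Ideal.mem_bot] at hmem
    have : (ℓ : ℕ) = 0 := by exact_mod_cast hmem
    exact h𝔔.ne_zero this
  refine ⟨⟨Q0, hprime, hne⟩, rfl, ?_, hrep⟩
  show (absNorm Q0).Prime
  have hbij : Function.Bijective
      (Ideal.quotientMap 𝔔.asIdeal (algebraMap (𝓞 K) (𝓞 L)) (le_refl Q0)) := by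
    refine ⟨Ideal.quotientMap_injective, fun z => ?_⟩
    obtain ⟨y, rfl⟩ := Ideal.Quotient.mk_surjective z
    obtain ⟨x, hx⟩ := hrep y
    refine ⟨Ideal.Quotient.mk Q0 x, ?_⟩
    rw [Ideal.quotientMap_mk]
    exact (Ideal.Quotient.eq.mpr hx).symm
  have : absNorm Q0 = ℓ := by
    rw [Ideal.absNorm_apply, Submodule.cardQuot_apply, ← hcard]
    exact Nat.card_congr (Equiv.ofBijective _ hbij)
  rw [this]
  exact h𝔔

omit hp in
/-- transfer of a `p`-th power residue from `𝔔` down to `𝔔 ∩ 𝓞 K`. -/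
theorem pow_sub_mem_comap (𝔔 : Ideal (𝓞 L)) {y : 𝓞 L} {x c : 𝓞 K}
    (hy : y ^ p - algebraMap (𝓞 K) (𝓞 L) c ∈ 𝔔) (hx : y - algebraMap (𝓞 K) (𝓞 L) x ∈ 𝔔) :
    x ^ p - c ∈ 𝔔.comap (algebraMap (𝓞 K) (𝓞 L)) := by
  rw [Ideal.mem_comap, map_sub, map_pow]
  have h1 : y ^ p - (algebraMap (𝓞 K) (𝓞 L) x) ^ p ∈ 𝔔 := by
    obtain ⟨d, hd⟩ := sub_dvd_pow_sub_pow y (algebraMap (𝓞 K) (𝓞 L) x) p
    rw [hd]
    exact 𝔔.mul_mem_right _ hx
  have := 𝔔.sub_mem hy h1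
  have e : y ^ p - algebraMap (𝓞 K) (𝓞 L) c - (y ^ p - (algebraMap (𝓞 K) (𝓞 L) x) ^ p) =
      (algebraMap (𝓞 K) (𝓞 L) x) ^ p - algebraMap (𝓞 K) (𝓞 L) c := by ring
  rwa [e] at this

end Descent

end Fermat.Agent.S55.AuxPrimes6
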