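/-
S55 / leaf 32b-AUX-PRIMES (helper6), part 4: weak Chebotarev for Kummer characters, general form.

`exists_prime_split_nonRes` (A3): `K ∋ ζ_p` a number field, `us ⊆ 𝓞 K ∖ {0}` finite, `w ∉ ⟨us⟩ K^{×p}`
⇒ outside any finite set there is a degree-one prime `Q ∤ p`, prime to `us` and `w`, modulo which every
`u ∈ us` IS a `p`-th power and `w` is NOT.
-/
import Mathlib
import Fermat.Agent.S55.AuxPrimes6.Kummer

set_option autoImplicit false

open NumberField Ideal IsDedekindDomain

namespace Fermat.Agent.S55.AuxPrimes6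

open Fermat.Agent.S14 Fermat.Agent.S14.Split27

variable {p : ℕ} [hp : Fact p.Prime]

/-- Auxiliary form of (A3), by induction on the number of elements of `us`, quantified over all number
fields. -/
theorem exists_prime_split_nonRes_aux (n : ℕ) :
    ∀ (K : Type) [Field K] [NumberField K] (ζ : 𝓞 K) (_ : IsPrimitiveRoot ζ p)
      (us : Finset (𝓞 K)), us.card = n → (∀ u ∈ us, u ≠ 0) → ∀ (w : 𝓞 K),
      (∀ (e : 𝓞 K → ℕ) (v : K), v ^ p ≠ (w : K) * ∏ u ∈ us, (u : K) ^ e u) →
      ∀ (B : Set (HeightOneSpectrum (𝓞 K))), B.Finite →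
      ∃ Q : HeightOneSpectrum (𝓞 K), Q ∉ B ∧ (absNorm Q.asIdeal).Prime ∧
        (p : 𝓞 K) ∉ Q.asIdeal ∧ (∀ u ∈ us, u ∉ Q.asIdeal ∧ IsPowMod p Q.asIdeal u) ∧
        w ∉ Q.asIdeal ∧ ¬ IsPowMod p Q.asIdeal w := by
  classical
  have hpp : p.Prime := hp.out
  induction n with
  | zero =>
    intro K _ _ ζ hζ us hcard _ w hw B hB
    have hus : us = ∅ := Finset.card_eq_zero.mp hcard
    subst hus
    have hw' : ¬ ∃ v : K, v ^ p = (w : K) := by
      rintro ⟨v, hv⟩
      exact hw (fun _ => 0) v (by simpa using hv)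
    obtain ⟨Q, h1, h2, h3, h4, h5⟩ := exists_prime_nonRes K ζ hζ w hw' B hB
    exact ⟨Q, h1, h2, h3, by simp, h4, h5⟩
  | succ n ih =>
    intro K _ _ ζ hζ us hcard h0 w hw B hB
    have hne : us.Nonempty := by
      rw [← Finset.card_pos, hcard]; exact Nat.succ_pos n
    obtain ⟨u, hu⟩ := hne
    set us' := us.erase u with hus'
    have hcard' : us'.card = n := by
      rw [hus', Finset.card_erase_of_mem hu, hcard]; rfl
    have hu0 : u ≠ 0 := h0 u hu
    have h0' : ∀ u' ∈ us', u' ≠ 0 := fun u' hu' => h0 u' (Finset.mem_of_mem_erase hu')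
    have hprod : ∀ e : 𝓞 K → ℕ, ∏ u' ∈ us, (u' : K) ^ e u' =
        (u : K) ^ e u * ∏ u' ∈ us', (u' : K) ^ e u' := fun e =>
      (Finset.mul_prod_erase us (fun u' => (u' : K) ^ e u') hu).symm
    have hupd : ∀ (e : 𝓞 K → ℕ) (j : ℕ), ∏ u' ∈ us', (u' : K) ^ (Function.update e u j) u' =
        ∏ u' ∈ us', (u' : K) ^ e u' := fun e j =>
      Finset.prod_congr rfl fun u' hu' => by
        rw [Function.update_of_ne (Finset.ne_of_mem_erase hu')]
    have huK : (u : K) ≠ 0 := by
      intro h; exact hu0 (RingOfIntegers.coe_injective (by simpa using h))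
    by_cases hpow : ∃ v₀ : K, v₀ ^ p = (u : K)
    · -- `u` is already a `p`-th power in `K`
      obtain ⟨v₀, hv₀⟩ := hpow
      have hint : IsIntegral ℤ v₀ := by
        refine IsIntegral.of_pow hpp.pos ?_
        rw [hv₀]; exact u.isIntegral_coe
      set v₁ : 𝓞 K := ⟨v₀, hint⟩ with hv₁
      have hv₁p : v₁ ^ p = u := RingOfIntegers.coe_injective (by
        rw [map_pow]; exact hv₀)
      have hw' : ∀ (e : 𝓞 K → ℕ) (v : K), v ^ p ≠ (w : K) * ∏ u' ∈ us', (u' : K) ^ e u' := by
        intro e v hv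
        refine hw (Function.update e u 0) v ?_
        rw [hprod, Function.update_self, pow_zero, one_mul, hupd, hv]
      have hEu := finite_setOf_mem K hu0
      obtain ⟨Q, h1, h2, h3, h4, h5, h6⟩ := ih K ζ hζ us' hcard' h0' w hw'
        (B ∪ {Q | u ∈ Q.asIdeal}) (hB.union hEu)
      refine ⟨Q, fun h => h1 (Or.inl h), h2, h3, fun u' hu' => ?_, h5, h6⟩
      by_cases huu : u' = u
      · subst huu
        refine ⟨fun h => h1 (Or.inr h), v₁, ?_⟩
        rw [hv₁p, sub_self]; exact Q.asIdeal.zero_mem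
      · exact h4 u' (Finset.mem_erase.mpr ⟨huu, hu'⟩)
    · -- `u` is not a `p`-th power: pass to `L = K(u^{1/p})`
      obtain ⟨L, i1, i2, i3, i4, hdeg, β, σ, hβ, hσ⟩ := Split13.exists_kummer_ext K p ζ hζ u hpow
      have hσ' : σ (β : L) = algebraMap K L (ζ : K) * (β : L) := by
        have h1 := congrArg (fun x : 𝓞 L => (x : L)) hσ
        have h2 : ((σ • β : 𝓞 L) : L) = σ (β : L) := rfl
        have h3 : ((algebraMap (𝓞 K) (𝓞 L) ζ * β : 𝓞 L) : L) =
            algebraMap K L (ζ : K) * (β : L) := by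
          show algebraMap (𝓞 L) L (algebraMap (𝓞 K) (𝓞 L) ζ * β) = _
          rw [map_mul]
          rfl
        rw [← h2, ← h3]
        exact h1
      set φ := algebraMap (𝓞 K) (𝓞 L) with hφ
      have hφinj : Function.Injective φ := FaithfulSMul.algebraMap_injective (𝓞 K) (𝓞 L)
      have hζK : IsPrimitiveRoot (ζ : K) p := hζ.map_of_injective RingOfIntegers.coe_injective
      have hβL : (β : L) ^ p = algebraMap K L (u : K) := by
        have := congrArg (fun x : 𝓞 L => (x : L)) hβ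
        rw [← coe_algebraMap]
        rw [← this]
        rfl
      -- the hypothesis over `L`
      have hwL : ∀ (e : 𝓞 L → ℕ) (γ : L),
          γ ^ p ≠ ((φ w : 𝓞 L) : L) * ∏ y ∈ us'.image φ, (y : L) ^ e y := by
        intro eL γ hγ
        rw [Finset.prod_image (fun a _ b _ h => hφinj h)] at hγ
        set e : 𝓞 K → ℕ := fun x => eL (φ x) with he
        have hγ' : γ ^ p = algebraMap K L ((w : K) * ∏ u' ∈ us', (u' : K) ^ e u') := by
          rw [hγ, map_mul, map_prod, coe_algebraMap]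
          congr 1
          refine Finset.prod_congr rfl fun u' _ => ?_
          rw [map_pow, coe_algebraMap]
        obtain ⟨k, v, hkv⟩ := exists_eq_pow_mul_pow (p := p) hdeg hζK hβL huK σ hσ' hγ'
        refine hw (Function.update e u ((p - 1) * k)) ((u : K) ^ k * v) ?_
        rw [hprod, Function.update_self, hupd, mul_left_comm, hkv, mul_pow, ← pow_mul, ← mul_assoc,
          ← pow_add]
        congr 2
        have : 1 ≤ p := hpp.one_le
        calc k * p = (p - 1 + 1) * k := by rw [Nat.sub_add_cancel this, mul_comm]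
          _ = (p - 1) * k + k := by ring
      -- the bad set over `L`
      set b : 𝓞 K := (∏ Q ∈ hB.toFinset, ((absNorm Q.asIdeal : ℕ) : 𝓞 K)) * u * (p : 𝓞 K) with hb
      have hb0 : b ≠ 0 := by
        rw [hb]
        refine mul_ne_zero (mul_ne_zero (Finset.prod_ne_zero_iff.mpr fun Q _ => ?_) hu0) ?_
        · have : absNorm Q.asIdeal ≠ 0 := by
            rw [Ne, Ideal.absNorm_eq_zero_iff]; exact Q.ne_bot
          exact_mod_cast this
        · exact_mod_cast hpp.ne_zero
      have hφb0 : φ b ≠ 0 := fun h => hb0 (hφinj (by rw [h, map_zero]))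
      have hBL := finite_setOf_mem L hφb0
      have hcardL : (us'.image φ).card = n := by
        rw [Finset.card_image_of_injective _ hφinj, hcard']
      have h0L : ∀ y ∈ us'.image φ, y ≠ 0 := by
        intro y hy
        obtain ⟨u', hu', rfl⟩ := Finset.mem_image.mp hy
        exact fun h => h0' u' hu' (hφinj (by rw [h, map_zero]))
      obtain ⟨𝔔, hQ1, hQ2, hQ3, hQ4, hQ5, hQ6⟩ := ih L (φ ζ) (hζ.map_of_injective hφinj)
        (us'.image φ) hcardL h0L (φ w) hwL {𝔔 | φ b ∈ 𝔔.asIdeal} hBL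
      obtain ⟨Q, hQeq, hQdeg, hrep⟩ := exists_under_degOne (K := K) 𝔔 hQ2
      have hmem : ∀ x : 𝓞 K, x ∈ Q.asIdeal ↔ φ x ∈ 𝔔.asIdeal := fun x => by
        rw [hQeq, Ideal.mem_comap]
      have hbQ : b ∉ Q.asIdeal := fun h => hQ1 ((hmem b).mp h)
      refine ⟨Q, ?_, hQdeg, ?_, ?_, ?_, ?_⟩
      · intro hQB
        apply hbQ
        rw [hb]
        refine Q.asIdeal.mul_mem_right _ (Q.asIdeal.mul_mem_right _ ?_)
        have hdvd : ((absNorm Q.asIdeal : ℕ) : 𝓞 K) ∣
            ∏ Q ∈ hB.toFinset, ((absNorm Q.asIdeal : ℕ) : 𝓞 K) :=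
          Finset.dvd_prod_of_mem _ (hB.mem_toFinset.mpr hQB)
        exact Ideal.mem_of_dvd _ hdvd (Ideal.absNorm_mem Q.asIdeal)
      · intro h
        apply hQ3
        have := (hmem _).mp h
        rwa [map_natCast] at this
      · intro u' hu'
        by_cases huu : u' = u
        · subst huu
          refine ⟨fun h => hbQ ?_, ?_⟩
          · rw [hb]
            exact Q.asIdeal.mul_mem_right _ (Q.asIdeal.mul_mem_left _ h)
          · obtain ⟨x, hx⟩ := hrep β
            refine ⟨x, ?_⟩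
            rw [hQeq]
            exact pow_sub_mem_comap 𝔔.asIdeal (by rw [hβ, sub_self]; exact 𝔔.asIdeal.zero_mem) hx
        · have hu'' : u' ∈ us' := Finset.mem_erase.mpr ⟨huu, hu'⟩
          obtain ⟨hn, y, hy⟩ := hQ4 (φ u') (Finset.mem_image_of_mem φ hu'')
          refine ⟨fun h => hn ((hmem _).mp h), ?_⟩
          obtain ⟨x, hx⟩ := hrep y
          refine ⟨x, ?_⟩
          rw [hQeq]
          exact pow_sub_mem_comap 𝔔.asIdeal hy hx
      · exact fun h => hQ5 ((hmem _).mp h)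
      · rintro ⟨x, hx⟩
        apply hQ6
        refine ⟨φ x, ?_⟩
        have := (hmem _).mp hx
        rwa [map_sub, map_pow] at this

/-- **(A3) Weak Chebotarev for Kummer characters.** `K ∋ ζ_p` a number field, `us` a finite set of nonzero
integers of `K`, `w ∈ 𝓞 K` not in `⟨us⟩ · K^{×p}`.  Outside any finite set `B` of primes there is a prime
`Q` of absolute degree one, not dividing `p`, prime to all `u ∈ us` and to `w`, such that every
`u ∈ us` is a `p`-th power modulo `Q` and `w` is not. -/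
theorem exists_prime_split_nonRes (K : Type) [Field K] [NumberField K] (ζ : 𝓞 K)
    (hζ : IsPrimitiveRoot ζ p) (us : Finset (𝓞 K)) (h0 : ∀ u ∈ us, u ≠ 0) (w : 𝓞 K)
    (hw : ∀ (e : 𝓞 K → ℕ) (v : K), v ^ p ≠ (w : K) * ∏ u ∈ us, (u : K) ^ e u)
    (B : Set (HeightOneSpectrum (𝓞 K))) (hB : B.Finite) :
    ∃ Q : HeightOneSpectrum (𝓞 K), Q ∉ B ∧ (absNorm Q.asIdeal).Prime ∧
      (p : 𝓞 K) ∉ Q.asIdeal ∧ (∀ u ∈ us, u ∉ Q.asIdeal ∧ IsPowMod p Q.asIdeal u) ∧
      w ∉ Q.asIdeal ∧ ¬ IsPowMod p Q.asIdeal w :=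
  exists_prime_split_nonRes_aux us.card K ζ hζ us rfl h0 w hw B hB

end Fermat.Agent.S55.AuxPrimes6
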