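/-
S55 / leaf 32b-AUX-PRIMES (helper6), part 5: the choice of auxiliary primes in the second inequality
(Neukirch VI.4.4 / Cassels–Fröhlich VII.9).

`x_0, …, x_{s-1} ∈ 𝓞 K ∖ {0}` independent modulo `p`-th powers (`K ∋ ζ_p`): there are degree-one primes
`Q_0, …, Q_{s-1}` (outside any given finite set, prime to `p` and to all `x_j`) with
`x_j` a `p`-th power modulo `Q_i`  ⇔  `i ≠ j`.
So the power residue characters `χ_{Q_i}` of `Δ = ⟨x_j⟩ K^{×p}/K^{×p}` form (up to scalars) the dual basis.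
-/
import Mathlib
import Fermat.Agent.S55.AuxPrimes6.Split

set_option autoImplicit false

open NumberField Ideal IsDedekindDomain

namespace Fermat.Agent.S55.AuxPrimes6

open Fermat.Agent.S14 Fermat.Agent.S14.Split27

variable {p : ℕ} [hp : Fact p.Prime]

/-- **(A4)** Dual basis of auxiliary primes. -/
theorem exists_dual_basis_primes (K : Type) [Field K] [NumberField K] (ζ : 𝓞 K)
    (hζ : IsPrimitiveRoot ζ p) {s : ℕ} (x : Fin s → 𝓞 K) (hx0 : ∀ j, x j ≠ 0)
    (hind : ∀ (e : Fin s → ℕ) (v : K), v ^ p = ∏ j, (x j : K) ^ e j → ∀ j, p ∣ e j)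
    (B : Set (HeightOneSpectrum (𝓞 K))) (hB : B.Finite) :
    ∃ Q : Fin s → HeightOneSpectrum (𝓞 K), Function.Injective Q ∧ (∀ i, Q i ∉ B) ∧
      (∀ i, (absNorm (Q i).asIdeal).Prime) ∧ (∀ i, (p : 𝓞 K) ∉ (Q i).asIdeal) ∧
      (∀ i j, x j ∉ (Q i).asIdeal) ∧ ∀ i j, IsPowMod p (Q i).asIdeal (x j) ↔ i ≠ j := by
  classical
  have hpp : p.Prime := hp.out
  -- `x` is injective
  have hxinj : Function.Injective x := by
    intro j j' hjj
    by_contra hne
    have := hind (fun i => if i = j then 1 else if i = j' then p - 1 else 0) (x j : K) (by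
      rw [Finset.prod_eq_mul_of_mem j j' (Finset.mem_univ _) (Finset.mem_univ _) hne]
      · simp only [if_true, if_neg (Ne.symm hne), pow_one]
        rw [← hjj, ← pow_succ', Nat.sub_add_cancel hpp.one_le]
      · intro c _ hc
        rw [if_neg hc.1, if_neg hc.2, pow_zero]) j
    simp only [if_true] at this
    exact hpp.one_lt.ne' (Nat.dvd_one.mp this)
  have key : ∀ i : Fin s, ∃ Q : HeightOneSpectrum (𝓞 K), Q ∉ B ∧ (absNorm Q.asIdeal).Prime ∧
      (p : 𝓞 K) ∉ Q.asIdeal ∧ (∀ j, x j ∉ Q.asIdeal) ∧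
      ∀ j, IsPowMod p Q.asIdeal (x j) ↔ i ≠ j := by
    intro i
    set us : Finset (𝓞 K) := (Finset.univ.erase i).image x with hus
    have h0 : ∀ u ∈ us, u ≠ 0 := by
      intro u hu
      obtain ⟨j, -, rfl⟩ := Finset.mem_image.mp hu
      exact hx0 j
    have hw : ∀ (e : 𝓞 K → ℕ) (v : K), v ^ p ≠ (x i : K) * ∏ u ∈ us, (u : K) ^ e u := by
      intro e v hv
      rw [hus, Finset.prod_image (fun a _ b _ h => hxinj h)] at hv
      have := hind (fun j => if j = i then 1 else e (x j)) v (by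
        rw [hv, ← Finset.mul_prod_erase Finset.univ _ (Finset.mem_univ i)]
        simp only [if_true, pow_one]
        congr 1
        refine Finset.prod_congr rfl fun j hj => ?_
        rw [if_neg (Finset.ne_of_mem_erase hj)]) i
      simp only [if_true] at this
      exact hpp.one_lt.ne' (Nat.dvd_one.mp this)
    obtain ⟨Q, h1, h2, h3, h4, h5, h6⟩ :=
      exists_prime_split_nonRes K ζ hζ us h0 (x i) hw B hB
    refine ⟨Q, h1, h2, h3, fun j => ?_, fun j => ?_⟩
    · by_cases hji : j = i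
      · rw [hji]; exact h5
      · exact (h4 (x j) (Finset.mem_image_of_mem x (Finset.mem_erase.mpr ⟨hji, Finset.mem_univ j⟩))).1
    · constructor
      · intro hpow hij
        rw [← hij] at hpow
        exact h6 hpow
      · intro hij
        exact (h4 (x j) (Finset.mem_image_of_mem x
          (Finset.mem_erase.mpr ⟨Ne.symm hij, Finset.mem_univ j⟩))).2
  choose Q hQ using key
  refine ⟨Q, ?_, fun i => (hQ i).1, fun i => (hQ i).2.1, fun i => (hQ i).2.2.1,
    fun i => (hQ i).2.2.2.1, fun i => (hQ i).2.2.2.2⟩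
  intro i i' hii
  by_contra hne
  have h1 : IsPowMod p (Q i).asIdeal (x i') := ((hQ i).2.2.2.2 i').mpr hne
  rw [hii] at h1
  exact ((hQ i').2.2.2.2 i').mp h1 rfl

end Fermat.Agent.S55.AuxPrimes6
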